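/-
S25, block CURVE (squad S25/S27, lead helper27): shared definitions.
Everything lives in namespace `Fermat.Agent.S25.Curve`.  Mathlib only.
-/
import Mathlib

set_option autoImplicit false

universe u

open CategoryTheory AlgebraicGeometry

namespace Fermat.Agent.S25.Curve

variable {k : Type u} [Field k] {C : Scheme.{u}} (c : C ⟶ Spec (CommRingCat.of k))

/-- The ring homomorphism `k → Γ(C, U)` induced by the structure morphism `c`:
`k ≅ Γ(Spec k, ⊤) → Γ(C, ⊤) → Γ(C, U)`. -/
noncomputable def sectionsRingHom (U : C.Opens) : k →+* Γ(C, U) :=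
  ((C.presheaf.map (homOfLE (le_top : U ≤ ⊤)).op).hom.comp c.appTop.hom).comp
    (Scheme.ΓSpecIso (CommRingCat.of k)).inv.hom

/-- The `k`-algebra structure on `Γ(C, U)` induced by the structure morphism `c`.
Not an instance: use `letI := sectionsAlgebra c U`. -/
@[reducible] noncomputable def sectionsAlgebra (U : C.Opens) : Algebra k Γ(C, U) :=
  (sectionsRingHom c U).toAlgebra

theorem algebraMap_sectionsAlgebra (U : C.Opens) :
    @algebraMap k Γ(C, U) _ _ (sectionsAlgebra c U) = sectionsRingHom c U := rfl

/-- Restriction of sections is compatible with the `k`-structure. -/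
theorem map_sectionsRingHom {U V : C.Opens} (h : U ≤ V) (a : k) :
    C.presheaf.map (homOfLE h).op (sectionsRingHom c V a) = sectionsRingHom c U a := by
  simp only [sectionsRingHom, RingHom.comp_apply]
  rw [← CommRingCat.comp_apply, ← Functor.map_comp]
  rfl

/-- `sectionsRingHom` in terms of `appLE`. -/
theorem sectionsRingHom_eq_appLE (U : C.Opens) :
    sectionsRingHom c U =
      (c.appLE ⊤ U (by simp)).hom.comp (Scheme.ΓSpecIso (CommRingCat.of k)).inv.hom := by
  ext a
  simp only [sectionsRingHom, RingHom.comp_apply, Scheme.Hom.appLE]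
  rfl

end Fermat.Agent.S25.Curve
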